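import Fermat.Agent.LocalModel.Tame
import Fermat.Agent.Root.Patched.LocalDefs

/-!
# Lifts at a place away from `p`: determinants and residual facts
-/

set_option autoImplicit false

noncomputable section

open IsLocalRing Polynomial

namespace Fermat.Agent.LocalModel

open Fermat.Agent.Deformation Fermat.Agent.Root.Patched

local notation "ℚbar" => AlgebraicClosure ℚ

theorem map_ringInverse {A B : Type} [CommRing A] [CommRing B] (f : A →+* B) {x : A}
    (hx : IsUnit x) : f (Ring.inverse x) = Ring.inverse (f x) := by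
  obtain ⟨u, rfl⟩ := hx
  rw [Ring.inverse_unit, show f (u : A) = ((Units.map (f : A →* B) u : Bˣ) : B) from rfl,
    Ring.inverse_unit, ← map_inv]
  rfl

theorem eq_of_sq_eq_sq {A : Type} [CommRing A] {x y : A} (h : x ^ 2 = y ^ 2)
    (hu : IsUnit (x + y)) : x = y :=
  sub_eq_zero.1 ((hu.mul_right_eq_zero).1 (by linear_combination h))

theorem trace_det_of_charpoly {A : Type} [CommRing A] [Nontrivial A] {M : M2 A} {a b : A}
    (h : M.charpoly = (X - C a) * (X - C b)) : M.trace = a + b ∧ M.det = a * b := by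
  rw [Matrix.charpoly_fin_two] at h
  have h0 := congrArg (Polynomial.eval 0) h
  have h1 := congrArg (Polynomial.eval 1) h
  simp only [eval_add, eval_sub, eval_pow, eval_X, eval_C, eval_mul] at h0 h1
  constructor
  · linear_combination (-1 : A) * h1 + h0
  · linear_combination h0

variable {O : Type} [CommRing O] [IsLocalRing O] {ρbar : GQ →* M2 (ResidueField O)}
  {S : TestRing O}

theorem mem_max_iff (x : S.R) : x ∈ maximalIdeal S.R ↔ S.red x = 0 := (S.ker_red x).symm

theorem alg_mem {a : O} (ha : a ∈ maximalIdeal O) : S.alg a ∈ maximalIdeal S.R := by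
  rw [mem_max_iff, S.red_alg]
  exact (residue_eq_zero_iff a).2 ha

theorem isUnit_of_red_ne_zero {x : S.R} (h : S.red x ≠ 0) : IsUnit x :=
  notMem_maximalIdeal.1 fun hx => h ((mem_max_iff x).1 hx)

theorem natCast_mem {p : ℕ} (hp : (p : O) ∈ maximalIdeal O) : (p : S.R) ∈ maximalIdeal S.R := by
  simpa using alg_mem (S := S) hp

theorem two_ne_zero {p : ℕ} (hp : (p : O) ∈ maximalIdeal O) (hpp : p.Prime) (hp2 : p ≠ 2) :
    (2 : ResidueField O) ≠ 0 := by
  intro h
  obtain ⟨k, hk⟩ := hpp.odd_of_ne_two hp2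
  have h1 : ((p : ℕ) : ResidueField O) = 0 := by
    rw [← map_natCast (residue O)]
    exact (residue_eq_zero_iff _).2 hp
  rw [hk] at h1
  push_cast at h1
  rw [h, zero_mul, zero_add] at h1
  exact one_ne_zero h1

theorem isUnit_two {p : ℕ} (hp : (p : O) ∈ maximalIdeal O) (hpp : p.Prime) (hp2 : p ≠ 2) :
    IsUnit (2 : O) :=
  notMem_maximalIdeal.1 fun h => two_ne_zero hp hpp hp2 (by
    rw [← map_ofNat (residue O) 2]; exact (residue_eq_zero_iff _).2 h)

theorem exists_half {p : ℕ} (hp : (p : O) ∈ maximalIdeal O) (hpp : p.Prime) (hp2 : p ≠ 2) :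
    ∃ h : O, 2 * h = 1 :=
  (isUnit_two hp hpp hp2).exists_right_inv

/-- A prime other than `p` is a unit. -/
theorem isUnit_natCast {p q : ℕ} (hp : (p : O) ∈ maximalIdeal O) (hpp : p.Prime) (hq : q.Prime)
    (hne : q ≠ p) : IsUnit (q : O) := by
  obtain ⟨a, b, hab⟩ := Int.isCoprime_iff_gcd_eq_one.mpr
    (show Int.gcd (p : ℤ) (q : ℤ) = 1 from (Nat.coprime_primes hpp hq).mpr (Ne.symm hne))
  have h : (a : O) * (p : O) + (b : O) * (q : O) = 1 := by
    exact_mod_cast congrArg (Int.cast : ℤ → O) hab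
  refine notMem_maximalIdeal.1 fun hq' => (maximalIdeal.isMaximal O).ne_top ?_
  rw [Ideal.eq_top_iff_one, ← h]
  exact add_mem (Ideal.mul_mem_left _ _ hp) (Ideal.mul_mem_left _ _ hq')

theorem red_entry (r : Lift ρbar S) (σ : GQ) (i j : Fin 2) : S.red (r.M σ i j) = ρbar σ i j := by
  rw [← r.reduces σ]
  rfl

theorem red_trace (r : Lift ρbar S) (σ : GQ) : S.red (r.M σ).trace = (ρbar σ).trace := by
  rw [Matrix.trace_fin_two, Matrix.trace_fin_two, map_add, red_entry, red_entry]

theorem red_det (r : Lift ρbar S) (σ : GQ) : S.red (r.M σ).det = (ρbar σ).det := by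
  rw [← r.reduces σ]
  exact S.red.map_det (r.M σ)

theorem pInertia_of_residual {p : ℕ} {P : ValuationSubring ℚbar} (r : Lift ρbar S)
    (h : ∀ σ ∈ P.inertiaSubgroupIn ℚ, ρbar σ ^ p = 1) : PInertia p P r.M := by
  intro σ hσ
  have h1 : S.red.mapMatrix (r.M σ ^ p) = 1 := by
    rw [map_pow, RingHom.mapMatrix_apply, r.reduces σ, h σ hσ]
  refine Matrix.ext fun i j => ?_
  rw [RingHom.mapMatrix_apply, Matrix.map_apply,
    ← Matrix.map_one (Ideal.Quotient.mk (maximalIdeal S.R)) (map_zero _) (map_one _),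
    Matrix.map_apply, Ideal.Quotient.eq, mem_max_iff, map_sub, sub_eq_zero]
  calc S.red ((r.M σ ^ p) i j) = (S.red.mapMatrix (r.M σ ^ p)) i j := rfl
    _ = (1 : M2 (ResidueField O)) i j := by rw [h1]
    _ = S.red ((1 : M2 S.R) i j) := by
      rcases eq_or_ne i j with rfl | hij
      · rw [Matrix.one_apply_eq, Matrix.one_apply_eq, map_one]
      · rw [Matrix.one_apply_ne hij, Matrix.one_apply_ne hij, map_zero]

theorem eq_of_forall_sub_mem_pow {R : Type} [CommRing R] [IsLocalRing R]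
    [IsHausdorff (maximalIdeal R) R] {x y : R} (h : ∀ n, x - y ∈ maximalIdeal R ^ n) : x = y := by
  refine sub_eq_zero.1 (IsHausdorff.haus' (I := maximalIdeal R) _ fun n => ?_)
  rw [SModEq.zero, Ideal.smul_top_eq_map, Algebra.algebraMap_self, Ideal.map_id,
    Submodule.restrictScalars_mem]
  exact h n

variable {p q : ℕ} {P : ValuationSubring ℚbar}

theorem det_eq_of_detCyclotomic (hp : (p : O) ∈ maximalIdeal O) {r : Lift ρbar S}
    (hr : DetCyclotomic p S r) {σ : GQ} {a : ℕ}
    (h : ∀ (n : ℕ) (μ : ℚbar), μ ^ p ^ n = 1 → σ μ = μ ^ a) : (r.M σ).det = a := by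
  refine eq_of_forall_sub_mem_pow fun n => ?_
  refine (Ideal.span_singleton_le_iff_mem _).2 ?_ (hr n σ a (h n))
  rw [Nat.cast_pow]
  exact Ideal.pow_mem_pow (natCast_mem hp) n

/-- A lift with cyclotomic determinant has determinant `q` at a Frobenius element over `q ≠ p`. -/
theorem det_frobenius (hp : (p : O) ∈ maximalIdeal O) (hpp : p.Prime) (hq : q.Prime) (hne : q ≠ p)
    (hP : P.LiesOverPrime q) {r : Lift ρbar S} (hr : DetCyclotomic p S r) {φ : GQ}
    (hφ : P.IsFrobeniusAt φ q) : (r.M φ).det = q :=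
  det_eq_of_detCyclotomic hp hr fun _ _ hμ =>
    Gal.apply_rootOfUnity_of_isFrobeniusAt hφ hq hP
      (fun hd => hne ((Nat.prime_dvd_prime_iff_eq hq hpp).1 (hq.dvd_of_dvd_pow hd))) hμ

/-- A lift with cyclotomic determinant has determinant `1` on inertia away from `p`. -/
theorem det_inertia (hp : (p : O) ∈ maximalIdeal O) (hpp : p.Prime) (hq : q.Prime) (hne : q ≠ p)
    (hP : P.LiesOverPrime q) {r : Lift ρbar S} (hr : DetCyclotomic p S r) {σ : GQ}
    (hσ : σ ∈ P.inertiaSubgroupIn ℚ) : (r.M σ).det = 1 := by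
  simpa using det_eq_of_detCyclotomic (a := 1) hp hr fun n μ hμ => by
    rw [pow_one]
    exact Gal.Tame.apply_eq_of_pow_eq_one hq hP hσ
      (fun hd => hne ((Nat.prime_dvd_prime_iff_eq hq hpp).1 (hq.dvd_of_dvd_pow hd))) hμ

end Fermat.Agent.LocalModel
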