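import Mathlib
import Fermat.Agent.LocalRing.Coord

/-!
# Two by two matrices with a Frobenius–inertia relation

`X` plays the role of Frobenius, `Y` of a tame generator of inertia.  The three kinds of local
coordinates of the root program are studied: scalar residual Frobenius, residually ramified
Steinberg, and residually unramified with non-scalar Frobenius.
-/

set_option autoImplicit false

namespace Fermat.Agent.LocalModel

open Matrix Fermat.Agent.LocalRing

variable {R : Type*} [CommRing R] {R' : Type*} [CommRing R']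

/-- The trace-free matrix with coordinates `v`. -/
def toMat (v : Fin 3 → R) : Matrix (Fin 2) (Fin 2) R := !![v 0, v 1; v 2, -v 0]

/-- The projective coordinates of `X`; `ti` is the inverse of the trace. -/
def frobCoord (ti : R) (X : Matrix (Fin 2) (Fin 2) R) : Fin 3 → R :=
  ![(X 0 0 - X 1 1) * ti, 2 * X 0 1 * ti, 2 * X 1 0 * ti]

/-- The coordinates of the trace-free part of `Y`; `h` is one half. -/
def inertCoord (h : R) (Y : Matrix (Fin 2) (Fin 2) R) : Fin 3 → R :=
  ![h * (Y 0 0 - Y 1 1), Y 0 1, Y 1 0]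

theorem map_frobCoord (φ : R →+* R') (ti : R) (X : Matrix (Fin 2) (Fin 2) R) (u : Fin 3) :
    φ (frobCoord ti X u) = frobCoord (φ ti) (X.map φ) u := by
  fin_cases u <;> simp [frobCoord, map_ofNat]

theorem map_inertCoord (φ : R →+* R') (h : R) (Y : Matrix (Fin 2) (Fin 2) R) (u : Fin 3) :
    φ (inertCoord h Y u) = inertCoord (φ h) (Y.map φ) u := by
  fin_cases u <;> simp [inertCoord]

theorem toMat_inertCoord {h : R} (hh : 2 * h = 1) (Y : Matrix (Fin 2) (Fin 2) R) :
    toMat (inertCoord h Y) = Y - (h * Y.trace) • (1 : Matrix (Fin 2) (Fin 2) R) := by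
  ext i j
  fin_cases i <;> fin_cases j <;>
    simp [toMat, inertCoord, Matrix.trace_fin_two] <;>
    first | linear_combination (Y 0 0) * hh | linear_combination (Y 1 1) * hh

theorem toMat_mul_self (v : Fin 3 → R) :
    toMat v * toMat v = qf v • (1 : Matrix (Fin 2) (Fin 2) R) := by
  ext i j
  fin_cases i <;> fin_cases j <;> simp [toMat, qf, Matrix.mul_apply, Fin.sum_univ_two] <;> ring

theorem four_mul_qf_inertCoord {h : R} (hh : 2 * h = 1) (Y : Matrix (Fin 2) (Fin 2) R) :
    4 * qf (inertCoord h Y) = Y.trace ^ 2 - 4 * Y.det := by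
  simp only [qf, inertCoord, Matrix.trace_fin_two, Matrix.det_fin_two, Matrix.cons_val_zero,
    Matrix.cons_val_one, Matrix.cons_val]
  linear_combination (2 * h + 1) * (Y 0 0 - Y 1 1) ^ 2 * hh

theorem sq_trace_mul_qf_frobCoord {ti : R} {X : Matrix (Fin 2) (Fin 2) R}
    (hti : ti * X.trace = 1) :
    qf (frobCoord ti X) * X.trace ^ 2 = X.trace ^ 2 - 4 * X.det := by
  simp only [qf, frobCoord, Matrix.trace_fin_two, Matrix.det_fin_two, Matrix.cons_val_zero,
    Matrix.cons_val_one, Matrix.cons_val] at hti ⊢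
  linear_combination ((X 0 0 - X 1 1) ^ 2 + 4 * (X 0 1 * X 1 0)) *
    (ti * (X 0 0 + X 1 1) + 1) * hti

theorem br_aux {ti u q t B n : R} (hti : ti * t = 1) (hu : u * (q + 1) = 1)
    (hE : (1 + q) * B + (1 - q) * t * n = 0) : 2 * ti * B = 2 * ((q - 1) * u) * n := by
  linear_combination (2 * ti * u) * hE + (-2 * u * n * (1 - q)) * hti + (-2 * ti * B) * hu

/-- `X N = q N X` in coordinates. -/
theorem br_of_rel {ti u q : R} {X : Matrix (Fin 2) (Fin 2) R} {n : Fin 3 → R}
    (hti : ti * X.trace = 1) (hu : u * (q + 1) = 1) (hrel : X * toMat n = q • (toMat n * X))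
    (w : Fin 3) : br (frobCoord ti X) n w = 2 * ((q - 1) * u) * n w := by
  have e := fun i j => congrFun (congrFun hrel i) j
  have e00 := e 0 0
  have e01 := e 0 1
  have e10 := e 1 0
  have e11 := e 1 1
  simp [toMat, Matrix.mul_apply, Fin.sum_univ_two, Matrix.vecMul, dotProduct] at e00 e01 e10 e11
  rw [Matrix.trace_fin_two] at hti
  fin_cases w
  · have h := br_aux hti hu (B := X 0 1 * n 2 - X 1 0 * n 1) (n := n 0)
      (by linear_combination e00 - e11)
    simp [br, frobCoord]
    linear_combination h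
  · have h := br_aux hti hu (B := (X 0 0 - X 1 1) * n 1 - 2 * (X 0 1 * n 0)) (n := n 1)
      (by linear_combination 2 * e01)
    simp [br, frobCoord]
    linear_combination h
  · have h := br_aux hti hu (B := 2 * (X 1 0 * n 0) - (X 0 0 - X 1 1) * n 2) (n := n 2)
      (by linear_combination 2 * e10)
    simp [br, frobCoord]
    linear_combination h

theorem eq_of_frobCoord {ti ti' : R} {X X' : Matrix (Fin 2) (Fin 2) R} (hti : ti * X.trace = 1)
    (hti' : ti' * X'.trace = 1) (h2 : IsUnit (2 : R)) (ht : X.trace = X'.trace)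
    (hc : frobCoord ti X = frobCoord ti' X') : X = X' := by
  have e : ti = ti' := by linear_combination ti' * hti - ti * hti' + (-ti * ti') * ht
  subst e
  have c0 := congrFun hc 0
  have c1 := congrFun hc 1
  have c2 := congrFun hc 2
  simp [frobCoord] at c0 c1 c2
  simp only [Matrix.trace_fin_two] at hti ht
  have h0 : X 0 0 - X 1 1 = X' 0 0 - X' 1 1 := by
    linear_combination (X 0 0 + X 1 1) * c0 -
      ((X 0 0 - X 1 1) - (X' 0 0 - X' 1 1)) * hti
  have h1 : 2 * X 0 1 = 2 * X' 0 1 := by
    linear_combination (X 0 0 + X 1 1) * c1 - (2 * X 0 1 - 2 * X' 0 1) * hti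
  have h2' : 2 * X 1 0 = 2 * X' 1 0 := by
    linear_combination (X 0 0 + X 1 1) * c2 - (2 * X 1 0 - 2 * X' 1 0) * hti
  ext i j
  fin_cases i <;> fin_cases j <;> simp only [Fin.zero_eta, Fin.mk_one]
  · exact h2.mul_left_cancel (by linear_combination h0 + ht)
  · exact h2.mul_left_cancel h1
  · exact h2.mul_left_cancel h2'
  · exact h2.mul_left_cancel (by linear_combination ht - h0)

theorem eq_of_inertCoord {h : R} (hh : 2 * h = 1) {Y Y' : Matrix (Fin 2) (Fin 2) R}
    (ht : Y.trace = Y'.trace) (hc : inertCoord h Y = inertCoord h Y') : Y = Y' := by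
  have e := toMat_inertCoord hh Y
  rw [hc, toMat_inertCoord hh Y', ht] at e
  exact (sub_left_injective e).symm

/-- A unipotent element in `toMat` form. -/
theorem eq_one_add_toMat {h : R} (hh : 2 * h = 1) {Y : Matrix (Fin 2) (Fin 2) R}
    (ht : Y.trace = 2) : Y = 1 + toMat (inertCoord h Y) := by
  rw [toMat_inertCoord hh, ht, mul_comm h 2, hh, one_smul, add_sub_cancel]

theorem one_add_pow_of_sq {A : Type*} [Ring A] {N : A} (hN : N * N = 0) (k : ℕ) :
    (1 + N) ^ k = 1 + k • N := by
  induction k with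
  | zero => simp
  | succ k ih =>
    rw [pow_succ, ih, add_mul, one_mul, mul_add, mul_one, smul_mul_assoc, hN, smul_zero, add_zero,
      succ_nsmul]
    abel

/-- `X (1 + N) = (1 + N) ^ q X` with `N ^ 2 = 0`. -/
theorem rel_of_sq {X N : Matrix (Fin 2) (Fin 2) R} {q : ℕ} (hN : N * N = 0)
    (h : X * (1 + N) = (1 + N) ^ q * X) : X * N = (q : R) • (N * X) := by
  rw [one_add_pow_of_sq hN, mul_add, mul_one, add_mul, one_mul, smul_mul_assoc] at h
  rw [add_left_cancel h, Nat.cast_smul_eq_nsmul]

/-! ### The flip coordinates -/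

/-- The frame `(e, X e)`. -/
def frameMat (e : Fin 2 → R) (X : Matrix (Fin 2) (Fin 2) R) : Matrix (Fin 2) (Fin 2) R :=
  !![e 0, (X.mulVec e) 0; e 1, (X.mulVec e) 1]

/-- `N` in the frame, up to the determinant. -/
def flipMat (e : Fin 2 → R) (X N : Matrix (Fin 2) (Fin 2) R) : Matrix (Fin 2) (Fin 2) R :=
  (frameMat e X).adjugate * N * frameMat e X

/-- The companion matrix. -/
def companion (X : Matrix (Fin 2) (Fin 2) R) : Matrix (Fin 2) (Fin 2) R :=
  !![0, -X.det; 1, X.trace]

theorem mul_frameMat (e : Fin 2 → R) (X : Matrix (Fin 2) (Fin 2) R) :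
    X * frameMat e X = frameMat e X * companion X := by
  ext i j
  fin_cases i <;> fin_cases j <;>
    simp [frameMat, companion, Matrix.mulVec, dotProduct, Fin.sum_univ_two, Matrix.mul_apply,
      Matrix.trace_fin_two, Matrix.det_fin_two] <;> ring

theorem adjugate_frameMat_mul (e : Fin 2 → R) (X : Matrix (Fin 2) (Fin 2) R) :
    (frameMat e X).adjugate * X = companion X * (frameMat e X).adjugate := by
  ext i j
  fin_cases i <;> fin_cases j <;>
    simp [frameMat, companion, Matrix.adjugate_fin_two, Matrix.mulVec, dotProduct,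
      Fin.sum_univ_two, Matrix.mul_apply, Matrix.trace_fin_two, Matrix.det_fin_two] <;> ring

theorem det_sq_smul_eq {A : Matrix (Fin 2) (Fin 2) R} (B : Matrix (Fin 2) (Fin 2) R) :
    A.det ^ 2 • B = A * (A.adjugate * B * A) * A.adjugate := by
  calc A.det ^ 2 • B = A.det • (A.det • ((1 : Matrix (Fin 2) (Fin 2) R) * B * 1)) := by
        rw [one_mul, mul_one, smul_smul, sq]
    _ = (A.det • 1) * B * (A.det • 1) := by
        rw [smul_mul_assoc, mul_smul_comm, smul_mul_assoc]
    _ = (A * A.adjugate) * B * (A * A.adjugate) := by rw [Matrix.mul_adjugate]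
    _ = A * (A.adjugate * B * A) * A.adjugate := by simp only [mul_assoc]

variable {e : Fin 2 → R} {X N : Matrix (Fin 2) (Fin 2) R} {q qi : R}

theorem flipMat_rel (hrel : X * N = q • (N * X)) :
    companion X * flipMat e X N = q • (flipMat e X N * companion X) := by
  simp only [flipMat, mul_assoc, ← mul_frameMat]
  rw [← mul_assoc, ← adjugate_frameMat_mul, mul_assoc, ← mul_assoc X N, hrel, smul_mul_assoc,
    mul_smul_comm, mul_assoc]

theorem trace_flipMat (hN : N.trace = 0) : (flipMat e X N).trace = 0 := by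
  rw [flipMat, Matrix.trace_mul_comm, ← mul_assoc, Matrix.mul_adjugate, smul_mul_assoc, one_mul,
    Matrix.trace_smul, hN, smul_zero]

theorem det_flipMat (hN : N.det = 0) : (flipMat e X N).det = 0 := by
  rw [flipMat, Matrix.det_mul, Matrix.det_mul, hN]
  ring

/-- The equations satisfied by the first column `(y, z)` of `flipMat`. -/
theorem flipMat_eqns (hrel : X * N = q • (N * X)) (htr : N.trace = 0) (hN : N.det = 0)
    (hdet : X.det = q) (hq : qi * q = 1) :
    flipMat e X N 0 1 = -flipMat e X N 1 0 ∧ flipMat e X N 1 1 = -flipMat e X N 0 0 ∧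
      X.trace * flipMat e X N 1 0 + (1 + q) * flipMat e X N 0 0 = 0 ∧
      flipMat e X N 0 0 ^ 2 = flipMat e X N 1 0 ^ 2 := by
  have h := flipMat_rel (e := e) hrel
  have h1 := trace_flipMat (e := e) (X := X) htr
  have h2 := det_flipMat (e := e) (X := X) hN
  generalize flipMat e X N = K at h h1 h2
  rw [Matrix.trace_fin_two] at h1
  rw [Matrix.det_fin_two] at h2
  have h00 := congrFun (congrFun h 0) 0
  have h10 := congrFun (congrFun h 1) 0
  simp [companion, Matrix.mul_apply, Fin.sum_univ_two, hdet] at h00 h10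
  have hb : K 0 1 = -K 1 0 := by linear_combination (-qi) * h00 - (K 0 1 + K 1 0) * hq
  refine ⟨hb, by linear_combination h1, by linear_combination h10 + q * h1, ?_⟩
  linear_combination (-1 : R) * h2 + K 0 0 * h1 - K 1 0 * hb

theorem flip_mul_eq {t y z s q : R} (hs : s * s = 1) (h : t * z + (1 + q) * y = 0) :
    (y - s * z) * (t - s * (q + 1)) = (1 + q) * z + t * y ∧
      (y + s * z) * (t + s * (q + 1)) = (1 + q) * z + t * y := by
  refine ⟨?_, ?_⟩
  · linear_combination (-s) * h + (q + 1) * z * hs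
  · linear_combination s * h + (q + 1) * z * hs

/-! ### The ramified Steinberg coordinates -/

/-- The frame `(N e, e)`. -/
def ramFrame (e : Fin 2 → R) (N : Matrix (Fin 2) (Fin 2) R) : Matrix (Fin 2) (Fin 2) R :=
  !![(N.mulVec e) 0, e 0; (N.mulVec e) 1, e 1]

theorem ram_mul_frame (hN : N * N = 0) :
    N * ramFrame e N = ramFrame e N * !![0, 1; 0, 0] := by
  have e' := fun i j => congrFun (congrFun hN i) j
  have e00 := e' 0 0
  have e01 := e' 0 1
  have e10 := e' 1 0
  have e11 := e' 1 1
  simp [Matrix.mul_apply, Fin.sum_univ_two] at e00 e01 e10 e11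
  ext i j
  fin_cases i <;> fin_cases j <;>
    simp [ramFrame, Matrix.mul_apply, Matrix.mulVec, dotProduct, Fin.sum_univ_two] <;>
    first
      | linear_combination (e 0) * e00 + (e 1) * e01
      | linear_combination (e 0) * e10 + (e 1) * e11

theorem ram_eqns {d di : R} {B C : Matrix (Fin 2) (Fin 2) R} (hd : B.det = d) (hdi : di * d = 1)
    (hN : N * B = B * !![0, 1; 0, 0]) (hrel : X * N = q • (N * X)) (hdet : X.det = q)
    (hq : qi * q = 1) (hC : C = B.adjugate * X * B) :
    C 1 0 = 0 ∧ C 0 0 = q * C 1 1 ∧ C 1 1 ^ 2 = d ^ 2 := by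
  have hdC : C.det = d ^ 2 * q := by
    rw [hC, Matrix.det_mul, Matrix.det_mul, Matrix.det_adjugate, hdet, hd, Fintype.card_fin]
    ring
  have hK : B.adjugate * N * B = d • !![0, 1; 0, 0] := by
    rw [mul_assoc, hN, ← mul_assoc, Matrix.adjugate_mul, hd, smul_mul_assoc, one_mul]
  have h1 : d • (C * !![0, 1; 0, 0]) = d • (q • (!![0, 1; 0, 0] * C)) := by
    rw [smul_comm d q, ← mul_smul_comm, ← smul_mul_assoc, ← hK, hC]
    calc B.adjugate * X * B * (B.adjugate * N * B)
        = B.adjugate * X * (B * B.adjugate) * N * B := by simp only [mul_assoc]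
      _ = d • (B.adjugate * (X * N) * B) := by
          rw [Matrix.mul_adjugate, hd]
          simp only [mul_smul_comm, smul_mul_assoc, mul_one, mul_assoc]
      _ = d • (q • (B.adjugate * (N * X) * B)) := by
          rw [hrel, mul_smul_comm, smul_mul_assoc]
      _ = q • (B.adjugate * N * (B * B.adjugate) * X * B) := by
          rw [Matrix.mul_adjugate, hd]
          simp only [mul_smul_comm, smul_mul_assoc, mul_one, mul_assoc]
          rw [smul_comm]
      _ = q • (B.adjugate * N * B * (B.adjugate * X * B)) := by simp only [mul_assoc]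
  have h2 : C * !![0, 1; 0, 0] = q • (!![0, 1; 0, 0] * C) := by
    have := congrArg (fun M => di • M) h1
    simpa [smul_smul, ← mul_assoc, hdi] using this
  have e00 := congrFun (congrFun h2 0) 0
  have e01 := congrFun (congrFun h2 0) 1
  simp [Matrix.mul_apply, Fin.sum_univ_two, Matrix.vecMul, dotProduct] at e00 e01
  have h10 : C 1 0 = 0 := by linear_combination (-qi) * e00 - (C 1 0) * hq
  refine ⟨h10, e01, ?_⟩
  rw [Matrix.det_fin_two, h10, e01] at hdC
  linear_combination qi * hdC - (C 1 1 ^ 2 - d ^ 2) * hq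

end Fermat.Agent.LocalModel
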