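import Fermat.Agent.LocalModel.Algebra
import Fermat.Agent.LocalModel.Common

/-!
# Coordinates at an Ihara avoidance place
-/

set_option autoImplicit false

noncomputable section

open IsLocalRing Polynomial

namespace Fermat.Agent.LocalModel

open Fermat.Agent.Deformation Fermat.Agent.LocalRing Fermat.Agent.Root.Patched

local notation "ℚbar" => AlgebraicClosure ℚ

variable {O : Type} [CommRing O] [IsLocalRing O] {ρbar : GQ →* M2 (ResidueField O)}

/-- The coordinates: `false` for Frobenius, `true` for inertia; `h` is one half. -/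
def avoidVal (h : O) (φ τ : GQ) (S : TestRing O) (r : Lift ρbar S) : Bool × Fin 3 → S.R
  | (false, u) => frobCoord (Ring.inverse (r.M φ).trace) (r.M φ) u
  | (true, u) => inertCoord (S.alg h) (r.M τ) u

theorem pow_prime_eq_one_of_charInertia [IsDomain O] {p : ℕ} (hpp : p.Prime) (hp2 : p ≠ 2)
    {ζ ζi : O} (hmul : ζ * ζi = 1) (hζ : ζ ^ p = 1) (hne : ζ ≠ 1) {S : TestRing O}
    {r : Lift ρbar S} {τ : GQ} (h : CharInertia τ ζ ζi S r) : r.M τ ^ p = 1 := by
  have hne2 : ζ ≠ ζi := by
    intro he
    obtain ⟨k, hk⟩ := hpp.odd_of_ne_two hp2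
    apply hne
    rw [← he, ← sq] at hmul
    calc ζ = (ζ ^ 2) ^ k * ζ := by rw [hmul, one_pow, one_mul]
      _ = 1 := by rw [← pow_mul, ← pow_succ, ← hk, hζ]
  have hζi : ζi ^ p = 1 := by
    have := congrArg (· ^ p) hmul
    simpa [mul_pow, hζ] using this
  obtain ⟨g, hg⟩ := dvd_iff_isRoot.2
    (show (X ^ p - 1 : O[X]).IsRoot ζ by simp [hζ])
  have hg0 : g.IsRoot ζi := by
    have := congrArg (Polynomial.eval ζi) hg
    simp only [eval_sub, eval_pow, Polynomial.eval_X, eval_one, hζi, sub_self,
      eval_mul, Polynomial.eval_C] at this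
    exact (mul_eq_zero.1 this.symm).resolve_left (sub_ne_zero.2 (Ne.symm hne2))
  obtain ⟨g', rfl⟩ := dvd_iff_isRoot.2 hg0
  have h2 := congrArg (Polynomial.map S.alg) hg
  simp only [Polynomial.map_sub, Polynomial.map_pow, Polynomial.map_X, Polynomial.map_one,
    Polynomial.map_mul, Polynomial.map_C] at h2
  rw [← mul_assoc, ← show (r.M τ).charpoly = _ from h] at h2
  have h3 := congrArg (Polynomial.aeval (r.M τ)) h2
  rw [map_sub, map_pow, aeval_X, map_one, map_mul, Matrix.aeval_self_charpoly, zero_mul,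
    sub_eq_zero] at h3
  exact h3

/-- **Ihara avoidance place**: `q ≡ 1 (mod p)`, residual inertia trivial and Frobenius scalar. -/
theorem exists_coords_avoid [IsDomain O] {p : ℕ} (hpp : p.Prime) (hp2 : p ≠ 2)
    (hp : (p : O) ∈ maximalIdeal O) (q : ℕ) (hq : q.Prime)
    (hq1 : q % p = 1) (P : ValuationSubring ℚbar) (hP : P.LiesOverPrime q)
    (hI : ∀ σ ∈ P.inertiaSubgroupIn ℚ, ρbar σ = 1)
    (hF : ∀ σ, P.IsFrobeniusAt σ q → ∃ c : ResidueField O, ρbar σ = c • (1 : M2 (ResidueField O))) :
    ∃ (κ : O) (φ τ : GQ), κ * ((q : O) + 1) = (q : O) - 1 ∧ P.IsFrobeniusAt φ q ∧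
      IsTameGenerator p q P τ ∧
      ∃ C : Coords ρbar P (Bool × Fin 3) (fun S r => DetCyclotomic p S r),
      ∀ S r, DetCyclotomic p S r →
        (Unipotent P S r →
          let s : Fin 3 → S.R := fun u => C.val S r (false, u)
          let N : Fin 3 → S.R := fun u => C.val S r (true, u)
          qf N = 0 ∧ (∀ u, br s N u = S.alg (2 * κ) * N u) ∧
            ((∀ u, N u = 0) → ∀ σ ∈ P.inertiaSubgroupIn ℚ, r.M σ = 1) ∧
            (qf s - S.alg (κ * κ)) * ((r.M φ).trace ^ 2) =
              (r.M φ).trace ^ 2 * (1 - S.alg (κ * κ)) - 4 * (q : S.R)) ∧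
        ∀ ζ ζi : O, ζ * ζi = 1 → ζ ^ p = 1 → ζ ≠ 1 → CharInertia τ ζ ζi S r →
          let s : Fin 3 → S.R := fun u => C.val S r (false, u)
          let N : Fin 3 → S.R := fun u => C.val S r (true, u)
          4 * qf N = S.alg ((ζ - ζi) ^ 2) ∧ ∀ u, br s N u = 0 := by
  obtain ⟨h, hh⟩ := exists_half hp hpp hp2
  have hne : q ≠ p := fun e => by simp [e] at hq1
  have hk2 := two_ne_zero hp hpp hp2
  have hres_q : residue O (q : O) = 1 := by
    conv_lhs => rw [← Nat.mod_add_div q p, hq1]
    simp [(residue_eq_zero_iff _).2 hp]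
  obtain ⟨u, hu⟩ := (notMem_maximalIdeal.1 fun hm => hk2 (by
    have := (residue_eq_zero_iff _).2 hm
    rwa [map_add, map_one, hres_q, one_add_one_eq_two] at this) :
      IsUnit ((q : O) + 1)).exists_left_inv
  obtain ⟨φ, hφ⟩ := Gal.exists_isFrobeniusAt hq hP
  obtain ⟨τ, hτ⟩ := exists_isTameGenerator hpp hq hne hP
  obtain ⟨c, hc⟩ := hF φ hφ
  have hh' : ∀ S : TestRing O, (2 : S.R) * S.alg h = 1 := fun S => by
    rw [← map_ofNat S.alg 2, ← map_mul, hh, map_one]
  have hpi : ∀ (S : TestRing O) (r : Lift ρbar S), PInertia p P r.M := fun S r =>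
    pInertia_of_residual r fun σ hσ => by rw [hI σ hσ, one_pow]
  -- the trace of Frobenius is a unit
  have hc0 : ∀ (S : TestRing O) (r : Lift ρbar S), DetCyclotomic p S r → c ≠ 0 := by
    intro S r hr hc0
    have e := congrArg S.red (det_frobenius hp hpp hq hne hP hr hφ)
    rw [red_det, hc, hc0, zero_smul, Matrix.det_zero, ← map_natCast S.alg, S.red_alg,
      hres_q] at e
    exact zero_ne_one e
  have htu : ∀ (S : TestRing O) (r : Lift ρbar S), DetCyclotomic p S r →
      IsUnit (r.M φ).trace := fun S r hr => isUnit_of_red_ne_zero <| by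
    rw [red_trace, hc, Matrix.trace_fin_two]
    simpa [← two_mul, hc0 S r hr] using hk2
  have hmem : ∀ (S : TestRing O) (r : Lift ρbar S) (i : Bool × Fin 3),
      avoidVal h φ τ S r i ∈ maximalIdeal S.R := by
    rintro S r ⟨_ | _, w⟩ <;> rw [mem_max_iff, avoidVal]
    · rw [map_frobCoord, r.reduces, hc]
      fin_cases w <;> simp [frobCoord]
    · rw [map_inertCoord, r.reduces, hI τ hτ.1]
      fin_cases w <;> simp [inertCoord]
  refine ⟨((q : O) - 1) * u, φ, τ, by rw [mul_assoc, hu, mul_one], hφ, hτ,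
    { val := avoidVal h φ τ
      mem := fun S r _ => hmem S r
      natural := ?_
      determine := ?_ }, fun S r hr => ⟨fun huni => ?_, fun ζ ζi hmul hζ hζ1 hch => ?_⟩⟩
  · rintro S S' f hf - r r' hr' hr ⟨_ | _, w⟩ <;> simp only [avoidVal]
    · rw [map_frobCoord, map_ringInverse f (htu S r hr), ← hr', AddMonoidHom.map_trace f, ← hr']
    · rw [map_inertCoord, ← hr', ← hf, RingHom.comp_apply]
  · intro S _ r r' hr hr' hv
    have hs : frobCoord (Ring.inverse (r.M φ).trace) (r.M φ) =
        frobCoord (Ring.inverse (r'.M φ).trace) (r'.M φ) := funext fun w =>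
      congrFun hv (false, w)
    have hN : inertCoord (S.alg h) (r.M τ) = inertCoord (S.alg h) (r'.M τ) := funext fun w =>
      congrFun hv (true, w)
    have hi := Ring.inverse_mul_cancel _ (htu S r hr)
    have hi' := Ring.inverse_mul_cancel _ (htu S r' hr')
    have htr : (r.M φ).trace = (r'.M φ).trace := by
      have e := sq_trace_mul_qf_frobCoord hi
      have e' := sq_trace_mul_qf_frobCoord hi'
      rw [det_frobenius hp hpp hq hne hP hr hφ, hs] at e
      rw [det_frobenius hp hpp hq hne hP hr' hφ] at e'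
      refine eq_of_sq_eq_sq ((IsUnit.mul_right_inj (a := 1 - qf
        (frobCoord (Ring.inverse (r'.M φ).trace) (r'.M φ))) ?_).1 ?_) (isUnit_of_red_ne_zero ?_)
      · refine isUnit_of_red_ne_zero ?_
        have h0 : ∀ w, S.red (frobCoord (Ring.inverse (r'.M φ).trace) (r'.M φ) w) = 0 := fun w =>
          (mem_max_iff _).1 (hmem S r' (false, w))
        simp [qf, h0]
      · linear_combination e' - e
      · rw [map_add, red_trace, red_trace, hc, Matrix.trace_fin_two]
        simp [← two_mul, hc0 S r hr, hk2]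
    have htrτ : (r.M τ).trace = (r'.M τ).trace := by
      have e := four_mul_qf_inertCoord (hh' S) (r.M τ)
      have e' := four_mul_qf_inertCoord (hh' S) (r'.M τ)
      rw [det_inertia hp hpp hq hne hP hr hτ.1, hN] at e
      rw [det_inertia hp hpp hq hne hP hr' hτ.1] at e'
      refine eq_of_sq_eq_sq (by linear_combination e' - e) (isUnit_of_red_ne_zero ?_)
      rw [map_add, red_trace, red_trace, hI τ hτ.1, Matrix.trace_one, Fintype.card_fin,
        ← Nat.cast_add, show (2 + 2 : ℕ) = 2 * 2 from rfl, Nat.cast_mul]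
      exact mul_ne_zero hk2 hk2
    have hφe := eq_of_frobCoord hi hi' (isUnit_of_red_ne_zero (by rwa [map_ofNat])) htr hs
    have hτe := eq_of_inertCoord (hh' S) htrτ hN
    exact eq_on_decomposition hq hP hφ r.cont r'.cont hφe
      (hτ.eq_on_inertia (natCast_mem hp) r.cont r'.cont (hpi S r) (hpi S r') hτe)
  · -- unipotent inertia
    intro s N
    obtain ⟨htr, hdet⟩ := trace_det_of_charpoly (M := r.M τ) (a := 1) (b := 1)
      (by rw [huni τ hτ.1, map_one, sq])
    rw [one_add_one_eq_two] at htr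
    rw [one_mul] at hdet
    have hY := eq_one_add_toMat (hh' S) htr
    have hqf : qf N = 0 := by
      have e := four_mul_qf_inertCoord (hh' S) (r.M τ)
      rw [htr, hdet] at e
      refine (IsUnit.mul_right_eq_zero (isUnit_of_red_ne_zero (x := (4 : S.R)) ?_)).1
        (e.trans (by ring))
      rw [show (4 : S.R) = 2 * 2 by norm_num, map_mul, map_ofNat]
      exact mul_ne_zero hk2 hk2
    have hsq : toMat N * toMat N = 0 := by rw [toMat_mul_self, hqf, zero_smul]
    have hrel := hτ.frobenius_mul (natCast_mem hp) r.cont (hpi S r) hφ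
    rw [hY] at hrel
    refine ⟨hqf, fun w => ?_, fun hN => ?_, ?_⟩
    · refine (br_of_rel (u := S.alg u) (Ring.inverse_mul_cancel _ (htu S r hr)) ?_
        (rel_of_sq hsq hrel) w).trans ?_
      · rw [← map_natCast S.alg, ← map_one S.alg, ← map_add, ← map_mul, hu]
      · rw [map_mul, map_ofNat, map_mul, map_sub, map_natCast, map_one]
    · refine hτ.eq_one (natCast_mem hp) r.cont (hpi S r) (hY.trans ?_)
      rw [show inertCoord (S.alg h) (r.M τ) = 0 from funext hN]
      ext i j
      fin_cases i <;> fin_cases j <;> simp [toMat]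
    · have e := sq_trace_mul_qf_frobCoord (Ring.inverse_mul_cancel _ (htu S r hr))
      rw [det_frobenius hp hpp hq hne hP hr hφ] at e
      change (qf (frobCoord (Ring.inverse (r.M φ).trace) (r.M φ)) - _) * _ = _
      linear_combination e
  · -- inertia with characters `ζ, ζi`
    intro s N
    obtain ⟨htr, hdet⟩ := trace_det_of_charpoly hch
    refine ⟨?_, fun w => ?_⟩
    · refine (four_mul_qf_inertCoord (hh' S) (r.M τ)).trans ?_
      rw [htr, hdet]
      simp only [map_sub, map_pow]
      ring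
    · have hcomm := hτ.frobenius_mul (natCast_mem hp) r.cont (hpi S r) hφ
      rw [← Nat.mod_add_div q p, hq1, pow_add, pow_one, pow_mul,
        pow_prime_eq_one_of_charInertia hpp hp2 hmul hζ hζ1 hch, one_pow, mul_one] at hcomm
      refine (br_of_rel (q := 1) (u := S.alg h) (Ring.inverse_mul_cancel _ (htu S r hr)) ?_ ?_
        w).trans ?_
      · rw [one_add_one_eq_two, mul_comm, hh' S]
      · rw [one_smul]
        show r.M φ * toMat (inertCoord (S.alg h) (r.M τ)) =
          toMat (inertCoord (S.alg h) (r.M τ)) * r.M φ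
        rw [toMat_inertCoord (hh' S), mul_sub, sub_mul, hcomm, mul_smul_comm, smul_mul_assoc,
          mul_one, one_mul]
      · simp

end Fermat.Agent.LocalModel
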