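import Fermat.Agent.LocalModel.Algebra
import Fermat.Agent.LocalModel.Common

/-!
# Coordinates at a flip place

In the frame `(e, X e)` the nilpotent `Y - 1` has first column `(y, z)` and the flip coordinates
are `y ∓ s₀ z`.
-/

set_option autoImplicit false

noncomputable section

open IsLocalRing Polynomial

namespace Fermat.Agent.LocalModel

open Fermat.Agent.Deformation Fermat.Agent.Root.Patched

local notation "ℚbar" => AlgebraicClosure ℚ

section Pure

variable {A B : Type} [CommRing A] [CommRing B] {n : ℕ}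

/-- The flip coordinate `i`; `s` is the sign of the residual eigenvalue. -/
def flipX (s : A) (e : Fin 2 → A) (X Y : M2 A) (i : Fin n) : A :=
  if (i : ℕ) = 0 then flipMat e X (Y - 1) 0 0 - s * flipMat e X (Y - 1) 1 0
  else flipMat e X (Y - 1) 0 0 + s * flipMat e X (Y - 1) 1 0

theorem map_frameMat (f : A →+* B) (e : Fin 2 → A) (X : M2 A) :
    (frameMat e X).map f = frameMat (f ∘ e) (X.map f) := by
  ext i j
  fin_cases i <;> fin_cases j <;> simp [frameMat, Matrix.mulVec, dotProduct, Fin.sum_univ_two]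

theorem map_flipMat (f : A →+* B) (e : Fin 2 → A) (X N : M2 A) :
    (flipMat e X N).map f = flipMat (f ∘ e) (X.map f) (N.map f) := by
  rw [flipMat, ← RingHom.mapMatrix_apply, map_mul, map_mul, RingHom.map_adjugate]
  simp only [RingHom.mapMatrix_apply, map_frameMat, flipMat]

theorem map_flipX (f : A →+* B) (s : A) (e : Fin 2 → A) (X Y : M2 A) (i : Fin n) :
    f (flipX s e X Y i) = flipX (f s) (f ∘ e) (X.map f) (Y.map f) i := by
  have h : (Y - 1).map f = Y.map f - 1 := by
    rw [Matrix.map_sub _ (map_sub f), Matrix.map_one _ (map_zero _) (map_one _)]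
  have h1 : ∀ a b, f (flipMat e X (Y - 1) a b) = flipMat (f ∘ e) (X.map f) (Y.map f - 1) a b :=
    fun a b => by rw [← h, ← map_flipMat]; rfl
  unfold flipX
  split_ifs <;> simp only [map_sub, map_add, map_mul, h1]

theorem exists_cyclic {k : Type} [Field k] {M : M2 k} (h : ¬ ∃ c : k, M = c • (1 : M2 k)) :
    ∃ e : Fin 2 → k, (frameMat e M).det ≠ 0 := by
  by_contra hc
  push Not at hc
  have h0 := hc ![1, 0]
  have h1 := hc ![0, 1]
  have h2 := hc ![1, 1]
  simp [frameMat, Matrix.det_fin_two, Matrix.mulVec, dotProduct, Fin.sum_univ_two] at h0 h1 h2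
  refine h ⟨M 0 0, Matrix.ext fun i j => ?_⟩
  fin_cases i <;> fin_cases j <;> simp [h0, h1]
  linear_combination h2 - h0 + h1

end Pure

variable {O : Type} [CommRing O] [IsLocalRing O] {ρbar : GQ →* M2 (ResidueField O)}

/-- The coordinates at a flip place: `a`, the `x`'s and the frame. -/
def flipVal {n : ℕ} (s₀ : O) (q : ℕ) (e w : Fin 2 → O) (φ τ : GQ) (S : TestRing O)
    (r : Lift ρbar S) : Option (Fin n) ⊕ Fin 2 → S.R
  | .inl none => (r.M φ).trace - S.alg (s₀ * ((q : O) + 1))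
  | .inl (some i) => flipX (S.alg s₀) (S.alg ∘ e) (r.M φ) (r.M τ) i
  | .inr j => (r.M φ).mulVec (S.alg ∘ e) j - S.alg (w j)

/-- The constants at a flip place. -/
def flipConst {n : ℕ} (s₀ : O) (q : ℕ) (i : Fin n) : O :=
  if (i : ℕ) = 0 then 0 else -(2 * s₀ * ((q : O) + 1))

/-- **Flip place** `q ≠ p`: residual inertia trivial, Frobenius not scalar, trace `± (q + 1)`. -/
theorem exists_coords_flip [IsDomain O] [CharZero O] {p : ℕ} (hpp : p.Prime) (hp2 : p ≠ 2)
    (hp : (p : O) ∈ maximalIdeal O) (q : ℕ) (hq : q.Prime)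
    (hqp : q ≠ p) (P : ValuationSubring ℚbar) (hP : P.LiesOverPrime q)
    (hI : ∀ σ ∈ P.inertiaSubgroupIn ℚ, ρbar σ = 1) (φ : GQ) (hφ : P.IsFrobeniusAt φ q)
    (hns : ¬ ∃ c : ResidueField O, ρbar φ = c • (1 : M2 (ResidueField O)))
    (s₀ : O) (hs₀ : s₀ = 1 ∨ s₀ = -1)
    (htr : (ρbar φ).trace = residue O (s₀ * ((q : O) + 1))) :
    ∃ (n : ℕ) (c : Fin n → O),
      ((¬ p ∣ q + 1 ∧ n = 1) ∨ (p ∣ q + 1 ∧ n = 2)) ∧ Function.Injective c ∧
      (∀ i, c i ∈ maximalIdeal O) ∧
      (∀ i, (c i + s₀ * ((q : O) + 1)) ^ 2 = ((q : O) + 1) ^ 2) ∧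
      ∃ C : Coords ρbar P (Option (Fin n) ⊕ Fin 2)
          (fun S r => DetCyclotomic p S r ∧ Unipotent P S r),
        ∀ S r, DetCyclotomic p S r → Unipotent P S r →
          let a := C.val S r (.inl none)
          let x : Fin n → S.R := fun i => C.val S r (.inl (some i))
          a = (r.M φ).trace - S.alg (s₀ * ((q : O) + 1)) ∧
            (∀ i, (x i * (a - S.alg (c i))) ^ 2 = 0) ∧ (∀ i l, i ≠ l → x i * x l = 0) ∧
            ((∀ i, x i = 0) → ∀ σ ∈ P.inertiaSubgroupIn ℚ, r.M σ = 1) := by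
  obtain ⟨τ, hτ⟩ := exists_isTameGenerator hpp hq hqp hP
  have hk2 := two_ne_zero hp hpp hp2
  have hs2 : s₀ * s₀ = 1 := by rcases hs₀ with h | h <;> simp [h]
  obtain ⟨qi, hqi⟩ := (isUnit_natCast hp hpp hq hqp).exists_left_inv
  obtain ⟨h, hh⟩ := exists_half hp hpp hp2
  obtain ⟨ebar, hebar⟩ := exists_cyclic hns
  choose e he using fun i => residue_surjective (R := O) (ebar i)
  choose w hw using fun i => residue_surjective (R := O) ((ρbar φ).mulVec ebar i)
  obtain ⟨n, hn⟩ : ∃ n, (¬ p ∣ q + 1 ∧ n = 1) ∨ (p ∣ q + 1 ∧ n = 2) := by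
    by_cases hd : p ∣ q + 1
    · exact ⟨2, Or.inr ⟨hd, rfl⟩⟩
    · exact ⟨1, Or.inl ⟨hd, rfl⟩⟩
  have hn1 : 1 ≤ n := by omega
  have hn2 : n ≤ 2 := by omega
  have halg : ∀ S : TestRing O, S.red ∘ (S.alg ∘ e) = ebar := fun S =>
    funext fun i => (S.red_alg _).trans (he i)
  have hpi : ∀ (S : TestRing O) (r : Lift ρbar S), PInertia p P r.M := fun S r =>
    pInertia_of_residual r fun σ hσ => by rw [hI σ hσ, one_pow]
  have hdS : ∀ (S : TestRing O) (r : Lift ρbar S),
      IsUnit (frameMat (S.alg ∘ e) (r.M φ)).det := fun S r => isUnit_of_red_ne_zero <| by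
    rw [S.red.map_det, RingHom.mapMatrix_apply, map_frameMat, halg, r.reduces]
    exact hebar
  have hhS : ∀ S : TestRing O, (2 : S.R) * S.alg h = 1 := fun S => by
    rw [← map_ofNat S.alg 2, ← map_mul, hh, map_one]
  have hqS : ∀ S : TestRing O, S.alg qi * (q : S.R) = 1 := fun S => by
    rw [← map_natCast S.alg, ← map_mul, hqi, map_one]
  have hsS : ∀ S : TestRing O, S.alg s₀ * S.alg s₀ = 1 := fun S => by
    rw [← map_mul, hs2, map_one]
  -- what unipotence of inertia gives
  have hN : ∀ (S : TestRing O) (r : Lift ρbar S), DetCyclotomic p S r → Unipotent P S r →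
      (r.M τ - 1).trace = 0 ∧ (r.M τ - 1).det = 0 ∧
        r.M φ * (r.M τ - 1) = (q : S.R) • ((r.M τ - 1) * r.M φ) := fun S r hr hu => by
    obtain ⟨ht, hdet⟩ := trace_det_of_charpoly (M := r.M τ) (a := 1) (b := 1)
      (by rw [hu τ hτ.1, map_one, sq])
    refine ⟨by rw [Matrix.trace_sub, ht, Matrix.trace_one, Fintype.card_fin]; norm_num,
      ?_, rel_of_sq ?_ ?_⟩
    · rw [Matrix.det_fin_two] at hdet ⊢
      rw [Matrix.trace_fin_two] at ht
      simp [Matrix.sub_apply]
      linear_combination hdet - ht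
    · have hc := Matrix.aeval_self_charpoly (r.M τ)
      rw [hu τ hτ.1, map_pow, map_sub, aeval_X, map_one, sq] at hc
      exact hc
    · rw [add_sub_cancel]
      exact hτ.frobenius_mul (natCast_mem hp) r.cont (hpi S r) hφ
  -- both signs give the same product
  have hE : ∀ (S : TestRing O) (r : Lift ρbar S), DetCyclotomic p S r → Unipotent P S r →
      let K := flipMat (S.alg ∘ e) (r.M φ) (r.M τ - 1)
      K 0 1 = -K 1 0 ∧ K 1 1 = -K 0 0 ∧
        (K 0 0 - S.alg s₀ * K 1 0) * ((r.M φ).trace - S.alg s₀ * ((q : S.R) + 1)) =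
          (K 0 0 + S.alg s₀ * K 1 0) * ((r.M φ).trace + S.alg s₀ * ((q : S.R) + 1)) ∧
        (K 0 0 - S.alg s₀ * K 1 0) * (K 0 0 + S.alg s₀ * K 1 0) = 0 := fun S r hr hu => by
    obtain ⟨h1, h2, h3⟩ := hN S r hr hu
    obtain ⟨k01, k11, k1, k2⟩ := flipMat_eqns (e := S.alg ∘ e) h3 h1 h2
      (det_frobenius hp hpp hq hqp hP hr hφ) (hqS S)
    obtain ⟨f1, f2⟩ := flip_mul_eq (hsS S) k1
    refine ⟨k01, k11, f1.trans f2.symm, ?_⟩
    linear_combination k2 - (flipMat (S.alg ∘ e) (r.M φ) (r.M τ - 1) 1 0) ^ 2 * hsS S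
  have hunit : ¬ p ∣ q + 1 → ∀ (S : TestRing O) (r : Lift ρbar S),
      IsUnit ((r.M φ).trace + S.alg s₀ * ((q : S.R) + 1)) := fun hd S r => by
    refine isUnit_of_red_ne_zero ?_
    rw [← map_natCast S.alg, ← map_one S.alg, ← map_add, ← map_mul, map_add, red_trace, htr,
      S.red_alg, ← two_mul]
    refine mul_ne_zero hk2 ?_
    rw [map_mul]
    refine mul_ne_zero (fun h0 => ?_) fun h0 => ?_
    · have := congrArg (residue O) hs2
      rw [map_mul, h0, zero_mul, map_one] at this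
      exact zero_ne_one this
    · obtain ⟨a, b, hab⟩ := Nat.isCoprime_iff_coprime.2 (hpp.coprime_iff_not_dvd.2 hd)
      have h1 : (a : O) * (p : O) + (b : O) * ((q : O) + 1) = 1 := by
        exact_mod_cast congrArg (Int.cast : ℤ → O) hab
      have := congrArg (residue O) h1
      rw [map_add, map_mul, map_mul, h0, (residue_eq_zero_iff _).2 hp, mul_zero, mul_zero,
        add_zero, map_one] at this
      exact zero_ne_one this
  refine ⟨n, flipConst s₀ q, hn, fun i l hil => ?_, fun i => ?_, fun i => ?_,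
    { val := flipVal s₀ q e w φ τ
      mem := ?_
      natural := ?_
      determine := ?_ }, fun S r hr hu => ⟨rfl, fun i => ?_, fun i l hil => ?_, fun hx => ?_⟩⟩
  · have hne : -(2 * s₀ * ((q : O) + 1)) ≠ 0 := by
      rw [neg_ne_zero]
      have hq1 : ((q : O) + 1) ≠ 0 := by exact_mod_cast (Nat.succ_ne_zero q)
      have hs0 : s₀ ≠ 0 := fun h0 => by simp [h0] at hs2
      exact mul_ne_zero (mul_ne_zero _root_.two_ne_zero hs0) hq1
    unfold flipConst at hil
    split_ifs at hil with h1 h2 h2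
    · exact Fin.ext (h1.trans h2.symm)
    · exact absurd hil.symm hne
    · exact absurd hil hne
    · exact Fin.ext (by omega)
  · unfold flipConst
    split_ifs with h1
    · exact zero_mem _
    · obtain ⟨-, h2⟩ | ⟨hd, -⟩ := hn
      · omega
      · obtain ⟨m, hm⟩ := hd
        have h3 : (q : O) + 1 = (p : O) * (m : O) := by exact_mod_cast hm
        rw [h3]
        exact neg_mem (Ideal.mul_mem_left _ _ (Ideal.mul_mem_right _ _ hp))
  · unfold flipConst
    split_ifs <;> linear_combination ((q : O) + 1) ^ 2 * hs2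
  · rintro S r ⟨-, hu⟩ ((_ | i) | j) <;> rw [mem_max_iff] <;> simp only [flipVal]
    · rw [map_sub, red_trace, S.red_alg, htr, sub_self]
    · rw [map_flipX, halg, r.reduces, r.reduces, hI τ hτ.1]
      simp [flipX, flipMat]
    · rw [map_sub, RingHom.map_mulVec, r.reduces, halg, S.red_alg, hw, sub_self]
  · rintro S S' f hf - r r' hr' - i
    have he' : f ∘ (S.alg ∘ e) = S'.alg ∘ e := funext fun l => RingHom.congr_fun hf (e l)
    obtain (_ | i) | j := i <;> simp only [flipVal]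
    · rw [map_sub, AddMonoidHom.map_trace f, ← hr', ← RingHom.comp_apply, hf]
    · rw [map_flipX, ← hr', ← hr', he', ← RingHom.comp_apply, hf]
    · rw [map_sub, RingHom.map_mulVec, ← hr', he', ← RingHom.comp_apply, hf]
  · rintro S - r r' ⟨hr, hu⟩ ⟨hr', hu'⟩ hv
    have hv' : ∀ i, flipVal s₀ q e w φ τ S r i = flipVal (n := n) s₀ q e w φ τ S r' i :=
      congrFun hv
    have ht : (r.M φ).trace = (r'.M φ).trace := by simpa [flipVal] using hv' (.inl none)
    have hB : frameMat (S.alg ∘ e) (r.M φ) = frameMat (S.alg ∘ e) (r'.M φ) := by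
      have h0 : (r.M φ).mulVec (S.alg ∘ e) 0 = (r'.M φ).mulVec (S.alg ∘ e) 0 := by
        simpa [flipVal] using hv' (.inr 0)
      have h1 : (r.M φ).mulVec (S.alg ∘ e) 1 = (r'.M φ).mulVec (S.alg ∘ e) 1 := by
        simpa [flipVal] using hv' (.inr 1)
      simp only [frameMat, h0, h1]
    obtain ⟨di, hdi⟩ := (hdS S r).exists_left_inv
    have hXe : r.M φ = r'.M φ := by
      have e1 := mul_frameMat (S.alg ∘ e) (r.M φ)
      have e2 : r'.M φ * frameMat (S.alg ∘ e) (r.M φ) =
          frameMat (S.alg ∘ e) (r.M φ) * companion (r.M φ) := by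
        rw [hB, mul_frameMat, companion, companion, ht, det_frobenius hp hpp hq hqp hP hr hφ,
          det_frobenius hp hpp hq hqp hP hr' hφ]
      have := congrArg (fun M => di • (M * (frameMat (S.alg ∘ e) (r.M φ)).adjugate))
        (e1.trans e2.symm)
      simpa [mul_assoc, Matrix.mul_adjugate, smul_smul, hdi] using this
    have hE1 := hE S r hr hu
    have hE2 := hE S r' hr' hu'
    simp only at hE1 hE2
    obtain ⟨a1, b1, m1, -⟩ := hE1
    obtain ⟨a2, b2, m2, -⟩ := hE2
    set K := flipMat (S.alg ∘ e) (r.M φ) (r.M τ - 1) with hKdef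
    set K' := flipMat (S.alg ∘ e) (r'.M φ) (r'.M τ - 1) with hKdef'
    have hx0 : K 0 0 - S.alg s₀ * K 1 0 = K' 0 0 - S.alg s₀ * K' 1 0 := by
      simpa [flipVal, flipX] using hv' (.inl (some ⟨0, hn1⟩))
    have hx1 : K 0 0 + S.alg s₀ * K 1 0 = K' 0 0 + S.alg s₀ * K' 1 0 := by
      obtain ⟨hd, -⟩ | ⟨-, h2⟩ := hn
      · rw [← hXe] at m2
        rw [hx0, m2] at m1
        exact (hunit hd S r).mul_right_cancel m1.symm
      · simpa [flipVal, flipX] using hv' (.inl (some ⟨1, by omega⟩))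
    have hy : K 0 0 = K' 0 0 := by
      linear_combination S.alg h * (hx0 + hx1) - (K 0 0 - K' 0 0) * hhS S
    have hz : K 1 0 = K' 1 0 := by
      linear_combination S.alg s₀ * (hx1 - hy) - (K 1 0 - K' 1 0) * hsS S
    have hK : K = K' := Matrix.ext fun i j => by
      fin_cases i <;> fin_cases j <;> simp [hy, hz, a1, b1, a2, b2]
    have e1 := det_sq_smul_eq (A := frameMat (S.alg ∘ e) (r.M φ)) (r.M τ - 1)
    have e2 := det_sq_smul_eq (A := frameMat (S.alg ∘ e) (r.M φ)) (r'.M τ - 1)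
    rw [← flipMat, ← hKdef] at e1
    rw [← flipMat, hXe, ← hKdef', ← hK, ← hXe] at e2
    have hτe : r.M τ = r'.M τ :=
      sub_left_injective ((IsUnit.smul_left_cancel ((hdS S r).pow 2)).1 (e1.trans e2.symm))
    exact eq_on_decomposition hq hP hφ r.cont r'.cont hXe
      (hτ.eq_on_inertia (natCast_mem hp) r.cont r'.cont (hpi S r) (hpi S r') hτe)
  · obtain ⟨-, -, m, hprod⟩ := hE S r hr hu
    simp only [flipVal, flipX, flipConst]
    set K := flipMat (S.alg ∘ e) (r.M φ) (r.M τ - 1)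
    split_ifs <;> simp only [map_zero, map_mul, map_add, map_neg, map_ofNat, map_natCast, map_one]
    · linear_combination ((K 0 0 - S.alg s₀ * K 1 0) *
        ((r.M φ).trace - S.alg s₀ * ((q : S.R) + 1))) * m +
        ((r.M φ).trace - S.alg s₀ * ((q : S.R) + 1)) *
          ((r.M φ).trace + S.alg s₀ * ((q : S.R) + 1)) * hprod
    · linear_combination (-(K 0 0 + S.alg s₀ * K 1 0) *
        ((r.M φ).trace + S.alg s₀ * ((q : S.R) + 1))) * m +
        ((r.M φ).trace - S.alg s₀ * ((q : S.R) + 1)) *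
          ((r.M φ).trace + S.alg s₀ * ((q : S.R) + 1)) * hprod
  · obtain ⟨-, -, -, hprod⟩ := hE S r hr hu
    simp only [flipVal, flipX]
    split_ifs with h1 h2 h2
    · exact absurd (Fin.ext (h1.trans h2.symm)) hil
    · exact hprod
    · rw [mul_comm]; exact hprod
    · exact absurd (Fin.ext (by omega)) hil
  · obtain ⟨a1, b1, m, -⟩ := hE S r hr hu
    set K := flipMat (S.alg ∘ e) (r.M φ) (r.M τ - 1) with hKdef
    have hx0 : K 0 0 - S.alg s₀ * K 1 0 = 0 := by
      simpa [flipVal, flipX] using hx ⟨0, hn1⟩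
    have hx' : ∀ h2 : 1 < n, K 0 0 + S.alg s₀ * K 1 0 = 0 := fun h2 => by
      simpa [flipVal, flipX] using hx ⟨1, h2⟩
    have hx1 : K 0 0 + S.alg s₀ * K 1 0 = 0 := by
      obtain ⟨hd, -⟩ | ⟨-, h2⟩ := hn
      · rw [hx0, zero_mul] at m
        exact (hunit hd S r).mul_left_eq_zero.1 m.symm
      · exact hx' (by omega)
    have hy : K 0 0 = 0 := by
      linear_combination S.alg h * (hx0 + hx1) - K 0 0 * hhS S
    have hz : K 1 0 = 0 := by
      linear_combination S.alg s₀ * (hx1 - hy) - K 1 0 * hsS S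
    have hK : K = 0 := Matrix.ext fun i j => by
      fin_cases i <;> fin_cases j <;> simp [hy, hz, a1, b1]
    have e1 := det_sq_smul_eq (A := frameMat (S.alg ∘ e) (r.M φ)) (r.M τ - 1)
    rw [← flipMat, ← hKdef, hK, mul_zero, zero_mul] at e1
    exact hτ.eq_one (natCast_mem hp) r.cont (hpi S r)
      (sub_eq_zero.1 ((((hdS S r).pow 2).smul_eq_zero).1 e1))

end Fermat.Agent.LocalModel
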