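import Fermat.Agent.LocalModel.Algebra
import Fermat.Agent.LocalModel.Common

/-!
# Coordinates at a Steinberg place with ramified residual representation
-/

set_option autoImplicit false

noncomputable section

open IsLocalRing

namespace Fermat.Agent.LocalModel

open Fermat.Agent.Deformation Fermat.Agent.Root.Patched

local notation "ℚbar" => AlgebraicClosure ℚ

/-- `((Y - 1) e, det (X e, e))`. -/
def ramRaw {A : Type} [CommRing A] (e : Fin 2 → A) (X Y : M2 A) : Fin 3 → A :=
  ![((Y - 1).mulVec e) 0, ((Y - 1).mulVec e) 1, (X.mulVec e) 0 * e 1 - e 0 * (X.mulVec e) 1]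

theorem map_ramRaw {A B : Type} [CommRing A] [CommRing B] (f : A →+* B) (e : Fin 2 → A)
    (X Y : M2 A) (i : Fin 3) :
    f (ramRaw e X Y i) = ramRaw (f ∘ e) (X.map f) (Y.map f) i := by
  fin_cases i <;> simp [ramRaw, Matrix.mulVec, dotProduct, Fin.sum_univ_two]

theorem map_ramFrame {A B : Type} [CommRing A] [CommRing B] (f : A →+* B) (e : Fin 2 → A)
    (N : M2 A) : (ramFrame e N).map f = ramFrame (f ∘ e) (N.map f) := by
  ext i j
  fin_cases i <;> fin_cases j <;> simp [ramFrame, Matrix.mulVec, dotProduct, Fin.sum_univ_two]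

theorem ramFrame_adjugate_mul_01 {A : Type} [CommRing A] (e : Fin 2 → A) (X Y : M2 A) :
    ((ramFrame e (Y - 1)).adjugate * X * ramFrame e (Y - 1)) 0 1 = ramRaw e X Y 2 := by
  simp [ramFrame, ramRaw, Matrix.adjugate_fin_two, Matrix.mul_apply, Matrix.mulVec,
    Matrix.vecMul, dotProduct, Fin.sum_univ_two]
  ring

variable {O : Type} [CommRing O] [IsLocalRing O] {ρbar : GQ →* M2 (ResidueField O)}
  {p q : ℕ} {P : ValuationSubring ℚbar}

theorem sq_sub_one_of_steinberg (hp : (p : O) ∈ maximalIdeal O) (hpp : p.Prime) (hq : q.Prime)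
    (hne : q ≠ p) (hP : P.LiesOverPrime q) {S : TestRing O} {r : Lift ρbar S}
    (hr : DetCyclotomic p S r) (hs : SteinbergShape P S r) {σ : GQ}
    (hσ : σ ∈ P.inertiaSubgroupIn ℚ) : (r.M σ - 1) * (r.M σ - 1) = 0 := by
  obtain ⟨s, ⟨hs1, hs2⟩, -⟩ := hs
  have hd : σ ∈ P.decompositionSubgroup ℚ := ((Gal.mem_inertia_iff P σ).1 hσ).1
  have e1 : s ⟨σ, hd⟩ = 1 := hs1 _ hσ
  have e2 : s ⟨σ, hd⟩⁻¹ = 1 := hs1 _ (inv_mem hσ)
  simpa [e1, e2, det_inertia hp hpp hq hne hP hr hσ] using hs2 ⟨σ, hd⟩ ⟨σ, hd⟩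

/-- **Square-zero inertia with ramified residual representation**: three coordinates. -/
theorem exists_coords_ram_of_sq (hpp : p.Prime) (hp2 : p ≠ 2) (hp : (p : O) ∈ maximalIdeal O)
    (q : ℕ) (hq : q.Prime) (hqp : q ≠ p) (P : ValuationSubring ℚbar) (hP : P.LiesOverPrime q)
    (hram : ∃ σ ∈ P.inertiaSubgroupIn ℚ, ρbar σ ≠ 1)
    (cond : ∀ S : TestRing O, Lift ρbar S → Prop)
    (hdet : ∀ S r, cond S r → DetCyclotomic p S r)
    (hsq : ∀ S r, cond S r → ∀ σ ∈ P.inertiaSubgroupIn ℚ, (r.M σ - 1) * (r.M σ - 1) = 0) :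
    Nonempty (Coords ρbar P (Fin 3) cond) := by
  classical
  obtain ⟨φ, hφ⟩ := Gal.exists_isFrobeniusAt hq hP
  obtain ⟨τ, hτ⟩ := exists_isTameGenerator hpp hq hqp hP
  have hk2 := two_ne_zero hp hpp hp2
  obtain ⟨qi, hqi⟩ := (isUnit_natCast hp hpp hq hqp).exists_left_inv
  let e : Fin 2 → O :=
    if (ρbar τ - 1) 0 0 = 0 ∧ (ρbar τ - 1) 1 0 = 0 then ![0, 1] else ![1, 0]
  have hlift : ∀ i, ∃ w : O, residue O w = ramRaw (residue O ∘ e) (ρbar φ) (ρbar τ) i := fun i =>
    residue_surjective _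
  choose w hw using hlift
  let raw : ∀ S : TestRing O, Lift ρbar S → Fin 3 → S.R := fun S r =>
    ramRaw (S.alg ∘ e) (r.M φ) (r.M τ)
  have halg : ∀ S : TestRing O, S.red ∘ (S.alg ∘ e) = residue O ∘ e := fun S =>
    funext fun i => S.red_alg _
  refine ⟨{
    val := fun S r i => raw S r i - S.alg (w i)
    mem := ?_
    natural := ?_
    determine := ?_ }⟩
  · intro S r _ i
    rw [mem_max_iff, map_sub, S.red_alg, hw, map_ramRaw, halg, r.reduces, r.reduces, sub_self]
  · intro S S' f hf _ r r' hr' _ i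
    simp only [map_sub, raw, map_ramRaw, ← hr', ← hf, RingHom.comp_apply]
    rfl
  intro S _ r r' hr hr' hv
  -- residual facts
  have hres : ∀ σ ∈ P.inertiaSubgroupIn ℚ, (ρbar σ - 1) * (ρbar σ - 1) = 0 := fun σ hσ => by
    have := congrArg S.red.mapMatrix (hsq S r hr σ hσ)
    rwa [map_mul, map_sub, map_one, map_zero, RingHom.mapMatrix_apply, r.reduces] at this
  have hres' : ∀ σ ∈ P.inertiaSubgroupIn ℚ, ρbar σ ^ p = 1 := fun σ hσ => by
    have := one_add_pow_of_sq (hres σ hσ) p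
    rw [add_sub_cancel, ← Nat.cast_smul_eq_nsmul (ResidueField O),
      ← map_natCast (residue O), (residue_eq_zero_iff _).2 hp, zero_smul, add_zero] at this
    exact this
  have hτ1 : ρbar τ ≠ 1 := by
    intro h1
    obtain ⟨σ, hσ, hne⟩ := hram
    refine hne (Matrix.ext fun i j => ?_)
    obtain ⟨k, hk, -⟩ := (hτ.modPow_prod (natCast_mem hp) r.cont r.cont
      (pInertia_of_residual r hres') (pInertia_of_residual r hres') 1).1 σ hσ
    have h2 := congrFun (congrFun hk i) j
    rw [modPow_apply, modPow_apply, ← map_pow, RingHom.mapMatrix_apply, RingHom.mapMatrix_apply,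
      Matrix.map_apply, Matrix.map_apply, Ideal.Quotient.eq, pow_one, mem_max_iff, map_sub,
      red_entry, sub_eq_zero] at h2
    rw [h2, show S.red ((r.M τ ^ k) i j) = (S.red.mapMatrix (r.M τ ^ k)) i j from rfl, map_pow,
      RingHom.mapMatrix_apply, r.reduces, h1, one_pow]
  have hframe : (ramFrame (residue O ∘ e) (ρbar τ - 1)).det ≠ 0 := by
    have hN := hres τ hτ.1
    have hN0 : ρbar τ - 1 ≠ 0 := sub_ne_zero.2 hτ1
    generalize hNdef : ρbar τ - 1 = N at hN hN0
    have e00 := congrFun (congrFun hN 0) 0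
    have e11 := congrFun (congrFun hN 1) 1
    simp [Matrix.mul_apply, Fin.sum_univ_two] at e00 e11
    intro hdet
    simp only [e, hNdef] at hdet
    split_ifs at hdet with hc
    · simp [ramFrame, Matrix.det_fin_two, Matrix.mulVec, dotProduct, Fin.sum_univ_two] at hdet
      refine hN0 (Matrix.ext fun i j => ?_)
      have h11 : N 1 1 = 0 := by
        rw [hc.2, zero_mul, zero_add] at e11
        simpa using e11
      fin_cases i <;> fin_cases j <;> simp [hc.1, hc.2, h11, hdet]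
    · simp [ramFrame, Matrix.det_fin_two, Matrix.mulVec, dotProduct, Fin.sum_univ_two] at hdet
      rw [hdet, mul_zero, add_zero] at e00
      exact hc ⟨by simpa using e00, hdet⟩
  -- the common frame
  have hval : ∀ i, raw S r i = raw S r' i := fun i => by simpa using congrFun hv i
  set E := S.alg ∘ e with hEdef
  have hB : ramFrame E (r.M τ - 1) = ramFrame E (r'.M τ - 1) := by
    have h0 : ((r.M τ - 1).mulVec E) 0 = ((r'.M τ - 1).mulVec E) 0 := hval 0
    have h1 : ((r.M τ - 1).mulVec E) 1 = ((r'.M τ - 1).mulVec E) 1 := hval 1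
    simp only [ramFrame, h0, h1]
  set B := ramFrame E (r.M τ - 1)
  have hmapB : B.map S.red = ramFrame (residue O ∘ e) (ρbar τ - 1) := by
    rw [map_ramFrame, halg, Matrix.map_sub _ (map_sub S.red), r.reduces,
      Matrix.map_one _ (map_zero _) (map_one _)]
  have hd : IsUnit B.det := isUnit_of_red_ne_zero <| by
    rw [S.red.map_det, RingHom.mapMatrix_apply, hmapB]
    exact hframe
  obtain ⟨di, hdi⟩ := hd.exists_left_inv
  have hsqτ := hsq S r hr τ hτ.1
  have hsqτ' := hsq S r' hr' τ hτ.1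
  have hNB := ram_mul_frame (e := E) hsqτ
  have hNB' := ram_mul_frame (e := E) hsqτ'
  rw [← hB] at hNB'
  have cancel : ∀ U V : M2 S.R, U * B = V * B → U = V := fun U V h => by
    have := congrArg (fun M => di • (M * B.adjugate)) h
    simpa [mul_assoc, Matrix.mul_adjugate, smul_smul, hdi] using this
  have hτe : r.M τ = r'.M τ := sub_left_injective (cancel _ _ (hNB.trans hNB'.symm))
  have hI := pInertia_of_residual r hres'
  have hI' := pInertia_of_residual r' hres'
  refine eq_on_decomposition hq hP hφ r.cont r'.cont ?_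
    (hτ.eq_on_inertia (natCast_mem hp) r.cont r'.cont hI hI' hτe)
  have hqS : S.alg qi * (q : S.R) = 1 := by rw [← map_natCast S.alg, ← map_mul, hqi, map_one]
  have hrel : ∀ {ρ : Lift ρbar S}, PInertia p P ρ.M → (ρ.M τ - 1) * (ρ.M τ - 1) = 0 →
      ρ.M φ * (ρ.M τ - 1) = (q : S.R) • ((ρ.M τ - 1) * ρ.M φ) := fun {ρ} hρ hsq => by
    refine rel_of_sq hsq ?_
    rw [add_sub_cancel]
    exact hτ.frobenius_mul (natCast_mem hp) ρ.cont hρ hφ
  obtain ⟨c10, c00, c11⟩ := ram_eqns rfl hdi hNB (hrel hI hsqτ)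
    (det_frobenius hp hpp hq hqp hP (hdet S r hr) hφ) hqS rfl
  obtain ⟨c10', c00', c11'⟩ := ram_eqns rfl hdi hNB' (hrel hI' hsqτ')
    (det_frobenius hp hpp hq hqp hP (hdet S r' hr') hφ) hqS rfl
  have hC11 : (B.adjugate * r.M φ * B) 1 1 = (B.adjugate * r'.M φ * B) 1 1 := by
    refine eq_of_sq_eq_sq (c11.trans c11'.symm) (isUnit_of_red_ne_zero ?_)
    have hC : ∀ ρ : Lift ρbar S, S.red ((B.adjugate * ρ.M φ * B) 1 1) =
        ((B.map S.red).adjugate * ρbar φ * B.map S.red) 1 1 := fun ρ => by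
      rw [show S.red ((B.adjugate * ρ.M φ * B) 1 1) =
        (S.red.mapMatrix (B.adjugate * ρ.M φ * B)) 1 1 from rfl, map_mul, map_mul,
        RingHom.map_adjugate, RingHom.mapMatrix_apply, RingHom.mapMatrix_apply, ρ.reduces]
    rw [map_add, hC, hC, ← two_mul]
    refine mul_ne_zero hk2 fun h0 => ?_
    have := congrArg S.red c11
    rw [map_pow, hC, h0, map_pow, zero_pow (by norm_num)] at this
    exact pow_ne_zero 2 (fun hz => hframe (by
      rw [← hmapB, ← RingHom.mapMatrix_apply, ← RingHom.map_det]; exact hz)) this.symm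
  have hCC : B.adjugate * r.M φ * B = B.adjugate * r'.M φ * B := by
    ext i j
    fin_cases i <;> fin_cases j <;> simp only [Fin.zero_eta, Fin.mk_one]
    · rw [c00, c00', hC11]
    · have h2 := ramFrame_adjugate_mul_01 E (r'.M φ) (r'.M τ)
      rw [← hB] at h2
      exact (ramFrame_adjugate_mul_01 E (r.M φ) (r.M τ)).trans ((hval 2).trans h2.symm)
    · rw [c10, c10']
    · exact hC11
  have := det_sq_smul_eq (A := B) (r.M φ)
  rw [hCC, ← det_sq_smul_eq] at this
  exact (IsUnit.smul_left_cancel (hd.pow 2)).1 this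

/-- **Steinberg place with ramified residual representation**: three coordinates. -/
theorem exists_coords_ram (hpp : p.Prime) (hp2 : p ≠ 2) (hp : (p : O) ∈ maximalIdeal O) (q : ℕ)
    (hq : q.Prime) (hqp : q ≠ p) (P : ValuationSubring ℚbar) (hP : P.LiesOverPrime q)
    (hram : ∃ σ ∈ P.inertiaSubgroupIn ℚ, ρbar σ ≠ 1) :
    Nonempty (Coords ρbar P (Fin 3)
      fun S r => DetCyclotomic p S r ∧ SteinbergShape P S r) :=
  exists_coords_ram_of_sq hpp hp2 hp q hq hqp P hP hram _ (fun _ _ h => h.1)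
    fun _ _ h _ hσ => sq_sub_one_of_steinberg hp hpp hq hqp hP h.1 h.2 hσ

end Fermat.Agent.LocalModel
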