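import Fermat.Agent.Gal.Tame
import Fermat.Agent.Gal.Decomposition
import Fermat.Agent.Deformation.MatrixRep

/-!
# Matrix representations on a decomposition group away from `p`

When the inertial image is pro-`p` it is topologically generated by the image of one tame
generator `τ`, and a Frobenius `φ` satisfies `φ τ = τ ^ q φ`; so a representation on the
decomposition group is determined by the two matrices.
-/

set_option autoImplicit false

noncomputable section

open IsLocalRing
open scoped Pointwise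

namespace Fermat.Agent.LocalModel

open Fermat.Agent.Deformation

local notation "ℚbar" => AlgebraicClosure ℚ

/-- `τ` generates every finite `p`-power inertial image and Frobenius acts on it by `q`-th
powers. -/
def IsTameGenerator (p q : ℕ) (P : ValuationSubring ℚbar) (τ : GQ) : Prop :=
  τ ∈ P.inertiaSubgroupIn ℚ ∧ ∀ {H : Type} [Group H] (ρ : GQ →* H),
    (∃ F : IntermediateField ℚ ℚbar, FiniteDimensional ℚ F ∧
      ∀ σ : GQ, (∀ x ∈ F, σ x = x) → ρ σ = 1) →
    (∀ σ ∈ P.inertiaSubgroupIn ℚ, ∃ k : ℕ, ρ σ ^ p ^ k = 1) →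
    (∀ σ ∈ P.inertiaSubgroupIn ℚ, ∃ k : ℕ, ρ σ = ρ τ ^ k) ∧
      ∀ φ : GQ, P.IsFrobeniusAt φ q → ρ φ * ρ τ * (ρ φ)⁻¹ = ρ τ ^ q

theorem exists_isTameGenerator {p q : ℕ} {P : ValuationSubring ℚbar} (hp : p.Prime) (hq : q.Prime)
    (hne : q ≠ p) (hP : P.LiesOverPrime q) : ∃ τ, IsTameGenerator p q P τ := by
  obtain ⟨τ, hτ, h⟩ := Gal.Tame.exists_tame_generator.{0} hq hp hne hP
  exact ⟨τ, hτ, fun {H} _ ρ => h ρ⟩

section ModPow

variable {R : Type} [CommRing R] [IsLocalRing R]

/-- `M` modulo the `n`-th power of the maximal ideal. -/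
def modPow (M : GQ →* M2 R) (n : ℕ) : GQ →* M2 (R ⧸ maximalIdeal R ^ n) :=
  mapRep (Ideal.Quotient.mk _) M

theorem modPow_apply (M : GQ →* M2 R) (n : ℕ) (σ : GQ) :
    modPow M n σ = (Ideal.Quotient.mk (maximalIdeal R ^ n)).mapMatrix (M σ) := rfl

theorem exists_finiteLevel {M : GQ →* M2 R} (hM : MatCont M) (n : ℕ) :
    ∃ F : IntermediateField ℚ ℚbar, FiniteDimensional ℚ F ∧
      ∀ σ : GQ, (∀ x ∈ F, σ x = x) → modPow M n σ = 1 := by
  obtain ⟨L, hL, h⟩ := hM n
  refine ⟨L, hL, fun σ hσ => Matrix.ext fun i j => ?_⟩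
  rw [modPow_apply, RingHom.mapMatrix_apply, Matrix.map_apply,
    ← Matrix.map_one (Ideal.Quotient.mk (maximalIdeal R ^ n)) (map_zero _) (map_one _),
    Matrix.map_apply, Ideal.Quotient.eq]
  exact h σ hσ i j

theorem eq_of_modPow_eq [IsHausdorff (maximalIdeal R) R] {M M' : GQ →* M2 R} {σ σ' : GQ}
    (h : ∀ n, modPow M n σ = modPow M' n σ') : M σ = M' σ' := by
  refine Matrix.ext fun i j => sub_eq_zero.1 (IsHausdorff.haus' (I := maximalIdeal R) _ fun n => ?_)
  rw [SModEq.zero, Ideal.smul_top_eq_map, Algebra.algebraMap_self, Ideal.map_id,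
    Submodule.restrictScalars_mem, ← Ideal.Quotient.eq]
  exact congrFun (congrFun (h n) i) j

variable {p : ℕ}

/-- `X ^ p ≡ 1` gives `p`-power order modulo every power of the maximal ideal. -/
theorem map_pow_prime_pow (hp : (p : R) ∈ maximalIdeal R) {X : M2 R}
    (h : (Ideal.Quotient.mk (maximalIdeal R)).mapMatrix (X ^ p) = 1) (n : ℕ) :
    (Ideal.Quotient.mk (maximalIdeal R ^ n)).mapMatrix (X ^ p ^ n) = 1 := by
  have key : ∀ (k : ℕ) (Y : M2 R), (∀ i j, (Y - 1) i j ∈ maximalIdeal R ^ (k + 1)) →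
      ∀ i j, (Y ^ p - 1) i j ∈ maximalIdeal R ^ (k + 2) := by
    intro k Y hY i j
    rw [← mul_geom_sum, Matrix.mul_apply]
    refine Ideal.sum_mem _ fun l _ => ?_
    rw [pow_succ (maximalIdeal R) (k + 1)]
    refine Ideal.mul_mem_mul (hY i l) ?_
    have h1 : (Ideal.Quotient.mk (maximalIdeal R)).mapMatrix Y = 1 := by
      refine Matrix.ext fun a b => ?_
      rw [RingHom.mapMatrix_apply, Matrix.map_apply,
        ← Matrix.map_one (Ideal.Quotient.mk (maximalIdeal R)) (map_zero _) (map_one _),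
        Matrix.map_apply, Ideal.Quotient.eq]
      exact Ideal.pow_le_self k.succ_ne_zero (hY a b)
    have h2 : (Ideal.Quotient.mk (maximalIdeal R)).mapMatrix (∑ m ∈ Finset.range p, Y ^ m) = 0 := by
      simp only [map_sum, map_pow, h1, one_pow, Finset.sum_const, Finset.card_range, nsmul_one]
      rw [← map_natCast (Ideal.Quotient.mk (maximalIdeal R)).mapMatrix]
      refine Matrix.ext fun a b => ?_
      rw [RingHom.mapMatrix_apply, Matrix.map_apply, Matrix.zero_apply,
        Ideal.Quotient.eq_zero_iff_mem, Matrix.natCast_apply]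
      split_ifs
      · exact hp
      · simp
    exact Ideal.Quotient.eq_zero_iff_mem.1 (congrFun (congrFun h2 l) j)
  have main : ∀ k : ℕ, ∀ i j, (X ^ p ^ (k + 1) - 1) i j ∈ maximalIdeal R ^ (k + 1) := by
    intro k
    induction k with
    | zero =>
      intro i j
      have h2 := congrFun (congrFun h i) j
      rw [RingHom.mapMatrix_apply, Matrix.map_apply,
        ← Matrix.map_one (Ideal.Quotient.mk (maximalIdeal R)) (map_zero _) (map_one _),
        Matrix.map_apply, Ideal.Quotient.eq] at h2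
      simpa [pow_one] using h2
    | succ k ih =>
      intro i j
      rw [pow_succ p (k + 1), pow_mul]
      exact key k _ ih i j
  cases n with
  | zero =>
    refine Matrix.ext fun i j => ?_
    have : Subsingleton (R ⧸ maximalIdeal R ^ 0) := by
      rw [pow_zero, Ideal.one_eq_top]; exact Ideal.Quotient.subsingleton_iff.2 rfl
    exact Subsingleton.elim _ _
  | succ k =>
    refine Matrix.ext fun i j => ?_
    rw [RingHom.mapMatrix_apply, Matrix.map_apply,
      ← Matrix.map_one (Ideal.Quotient.mk (maximalIdeal R ^ (k + 1))) (map_zero _) (map_one _),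
      Matrix.map_apply, Ideal.Quotient.eq]
    exact main k i j

variable {q : ℕ} {P : ValuationSubring ℚbar} {τ : GQ}

/-- A representation which is pro-`p` on inertia. -/
def PInertia (p : ℕ) (P : ValuationSubring ℚbar) (M : GQ →* M2 R) : Prop :=
  ∀ σ ∈ P.inertiaSubgroupIn ℚ, (Ideal.Quotient.mk (maximalIdeal R)).mapMatrix (M σ ^ p) = 1

theorem IsTameGenerator.modPow_prod (hτ : IsTameGenerator p q P τ) (hp : (p : R) ∈ maximalIdeal R)
    {M M' : GQ →* M2 R} (hM : MatCont M) (hM' : MatCont M') (hI : PInertia p P M)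
    (hI' : PInertia p P M') (n : ℕ) :
    (∀ σ ∈ P.inertiaSubgroupIn ℚ, ∃ k : ℕ,
        modPow M n σ = modPow M n τ ^ k ∧ modPow M' n σ = modPow M' n τ ^ k) ∧
      ∀ φ : GQ, P.IsFrobeniusAt φ q →
        modPow M n φ * modPow M n τ = modPow M n τ ^ q * modPow M n φ := by
  let ρ := ((modPow M n).prod (modPow M' n)).toHomUnits
  obtain ⟨F, hF, hF1⟩ := exists_finiteLevel hM n
  obtain ⟨F', hF', hF1'⟩ := exists_finiteLevel hM' n
  obtain ⟨h1, h2⟩ := hτ.2 ρ
    ⟨F ⊔ F', IntermediateField.finiteDimensional_sup F F', fun σ hσ => Units.ext <| Prod.ext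
      (hF1 σ fun x hx => hσ x (le_sup_left (a := F) hx))
      (hF1' σ fun x hx => hσ x (le_sup_right (b := F') hx))⟩
    (fun σ hσ => ⟨n, Units.ext <| Prod.ext
      (by
        show modPow M n σ ^ p ^ n = 1
        rw [modPow_apply, ← map_pow]
        exact map_pow_prime_pow hp (hI σ hσ) n)
      (by
        show modPow M' n σ ^ p ^ n = 1
        rw [modPow_apply, ← map_pow]
        exact map_pow_prime_pow hp (hI' σ hσ) n)⟩)
  refine ⟨fun σ hσ => ?_, fun φ hφ => ?_⟩
  · obtain ⟨k, hk⟩ := h1 σ hσ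
    exact ⟨k, congrArg Prod.fst (congrArg Units.val hk), congrArg Prod.snd (congrArg Units.val hk)⟩
  · have h3 := mul_inv_eq_iff_eq_mul.1 (h2 φ hφ)
    exact congrArg Prod.fst (congrArg Units.val h3)

variable [IsHausdorff (maximalIdeal R) R]

/-- The Frobenius relation. -/
theorem IsTameGenerator.frobenius_mul (hτ : IsTameGenerator p q P τ)
    (hp : (p : R) ∈ maximalIdeal R) {M : GQ →* M2 R} (hM : MatCont M) (hI : PInertia p P M)
    {φ : GQ} (hφ : P.IsFrobeniusAt φ q) : M φ * M τ = M τ ^ q * M φ := by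
  rw [← map_pow, ← map_mul, ← map_mul]
  refine eq_of_modPow_eq fun n => ?_
  simp only [map_mul, map_pow]
  exact (hτ.modPow_prod hp hM hM hI hI n).2 φ hφ

/-- Two representations which agree at the generator agree on inertia. -/
theorem IsTameGenerator.eq_on_inertia (hτ : IsTameGenerator p q P τ)
    (hp : (p : R) ∈ maximalIdeal R) {M M' : GQ →* M2 R} (hM : MatCont M) (hM' : MatCont M')
    (hI : PInertia p P M) (hI' : PInertia p P M') (h : M τ = M' τ) :
    ∀ σ ∈ P.inertiaSubgroupIn ℚ, M σ = M' σ := fun σ hσ => eq_of_modPow_eq fun n => by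
  obtain ⟨k, h1, h2⟩ := (hτ.modPow_prod hp hM hM' hI hI' n).1 σ hσ
  rw [h1, h2, modPow_apply, modPow_apply, h]

/-- Inertia acts trivially once the generator does. -/
theorem IsTameGenerator.eq_one (hτ : IsTameGenerator p q P τ) (hp : (p : R) ∈ maximalIdeal R)
    {M : GQ →* M2 R} (hM : MatCont M) (hI : PInertia p P M) (h : M τ = 1) :
    ∀ σ ∈ P.inertiaSubgroupIn ℚ, M σ = 1 := fun σ hσ => by
  rw [← map_one M]
  refine eq_of_modPow_eq fun n => ?_
  obtain ⟨k, h1, -⟩ := (hτ.modPow_prod hp hM hM hI hI n).1 σ hσ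
  rw [h1, modPow_apply, h, map_one, one_pow, map_one]

/-- A continuous representation on a decomposition group is determined by a Frobenius and by
inertia. -/
theorem eq_on_decomposition (hq : q.Prime) (hP : P.LiesOverPrime q) {φ : GQ}
    (hφ : P.IsFrobeniusAt φ q) {M M' : GQ →* M2 R} (hM : MatCont M) (hM' : MatCont M')
    (hφe : M φ = M' φ) (hI : ∀ σ ∈ P.inertiaSubgroupIn ℚ, M σ = M' σ) :
    ∀ g ∈ P.decompositionSubgroup ℚ, M g = M' g := by
  intro g hg
  refine eq_of_modPow_eq fun n => ?_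
  obtain ⟨F, hF, hF1⟩ := exists_finiteLevel hM n
  obtain ⟨F', hF', hF1'⟩ := exists_finiteLevel hM' n
  obtain ⟨j, σ, hσ, he⟩ := Gal.exists_pow_mul_inertia_eqOn hq (F ⊔ F') hP hφ hg
  have hfix : ∀ x ∈ F ⊔ F', ((φ ^ j * σ)⁻¹ * g) x = x := fun x hx => by
    rw [AlgEquiv.mul_apply, he x hx, ← AlgEquiv.mul_apply, inv_mul_cancel, AlgEquiv.one_apply]
  have e1 := hF1 _ fun x hx => hfix x (le_sup_left (a := F) hx)
  have e2 := hF1' _ fun x hx => hfix x (le_sup_right (b := F') hx)
  rw [show g = φ ^ j * σ * ((φ ^ j * σ)⁻¹ * g) from (mul_inv_cancel_left _ g).symm, map_mul,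
    map_mul (modPow M' n) _ ((φ ^ j * σ)⁻¹ * g), e1, e2, map_mul, map_mul, map_pow, map_pow,
    modPow_apply, modPow_apply, modPow_apply, modPow_apply, hφe, hI σ hσ]

end ModPow

end Fermat.Agent.LocalModel
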